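/-
S55 / Z / Cyclo : TASK S55/Z-cyclo.  `ℚ(μ_p)` is unramified outside `S ∋ p`.
-/
import Fermat.Agent.S55.Arith.Defs
import Fermat.Agent.ES.D.Cyclo

set_option autoImplicit false

noncomputable section

namespace Fermat.Agent.S55

open Places ExtCitation

/-- the field `ℚ(μ_m)` inside `Qbar` -/
def cycloNF (m : ℕ) : NF := IntermediateField.adjoin ℚ {ζ : Qbar | ζ ^ m = 1}

theorem mem_cycloNF {m : ℕ} {ζ : Qbar} (hζ : ζ ^ m = 1) : ζ ∈ cycloNF m :=
  IntermediateField.subset_adjoin _ _ hζ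

theorem finiteDimensional_cycloNF (m : ℕ) (hm : m ≠ 0) : FiniteDimensional ℚ (cycloNF m) := by
  have hfin : {ζ : Qbar | ζ ^ m = 1}.Finite := by
    have : {ζ : Qbar | ζ ^ m = 1} ⊆ ((Polynomial.nthRoots m (1 : Qbar)).toFinset : Set Qbar) := by
      intro ζ hζ
      simp only [Finset.mem_coe, Multiset.mem_toFinset]
      exact (Polynomial.mem_nthRoots (Nat.pos_of_ne_zero hm)).mpr hζ
    exact (Finset.finite_toSet _).subset this
  have := hfin.to_subtype
  exact IntermediateField.finiteDimensional_adjoin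
    (fun x _ => (ES.D.isAlgebraic_Qb.isAlgebraic x).isIntegral)

theorem mem_fixingSubgroup_cycloNF_iff (m : ℕ) (σ : GQ) :
    σ ∈ (cycloNF m).fixingSubgroup ↔ ∀ ζ : Qbar, ζ ^ m = 1 → σ ζ = ζ := by
  constructor
  · intro h ζ hζ
    exact (IntermediateField.mem_fixingSubgroup_iff _ _).1 h ζ (mem_cycloNF hζ)
  · intro h
    have h1 : cycloNF m ≤ IntermediateField.fixedField (Subgroup.zpowers σ) := by
      refine IntermediateField.adjoin_le_iff.2 (fun ζ hζ => ?_)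
      rw [SetLike.mem_coe, IntermediateField.mem_fixedField_iff]
      rintro _ ⟨n, rfl⟩
      have h2 : σ ∈ MulAction.stabilizer GQ ζ := h ζ hζ
      exact (MulAction.stabilizer GQ ζ).zpow_mem h2 n
    exact (IntermediateField.le_iff_le _ _).1 h1 (Subgroup.mem_zpowers σ)

/-- inertia at `q ∤ m` fixes the `m`-th roots of unity. -/
theorem inertia_fixes_rootsOfUnity {m q : ℕ} (hm0 : m ≠ 0) (hq : q.Prime) (hm : ¬ q ∣ m)
    {A : ValuationSubring Qbar} (hA : A.LiesOverPrime q) {σ : GQ}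
    (hσ : σ ∈ A.inertiaSubgroupIn ℚ) {ζ : Qbar} (hζ : ζ ^ m = 1) : σ ζ = ζ := by
  apply ES.D.eq_of_pow_eq_one_of_val_lt hq hA hm _ hζ hm0
    ((S05.inertia_spec A σ hσ).2 ζ (ES.D.val_le_one_of_pow_eq_one A hm0 hζ))
  rw [← map_pow, hζ, map_one]

/-- `ℚ(μ_m)` is unramified outside `S` as soon as `S` contains all prime divisors of `m`. -/
theorem isUnramifiedOutside_cycloNF (m : ℕ) (hm0 : m ≠ 0) (S : Finset Nat.Primes)
    (hS : ∀ q : Nat.Primes, (q : ℕ) ∣ m → q ∈ S) : (cycloNF m).IsUnramifiedOutside S := by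
  refine ⟨finiteDimensional_cycloNF m hm0, fun q hq A hA σ hσ => ?_⟩
  rw [mem_fixingSubgroup_cycloNF_iff]
  intro ζ hζ
  exact inertia_fixes_rootsOfUnity hm0 q.2 (fun h => hq (hS q h)) hA hσ hζ

theorem cycloChar_eq_one_of_fixes (p : ℕ) [Fact p.Prime] (σ : GQ)
    (hfix : ∀ ζ : Qbar, ζ ^ p = 1 → σ ζ = ζ) : cycloChar p σ = 1 := by
  have : NeZero p := ⟨(Fact.out : p.Prime).ne_zero⟩
  exact ES.D.cyc_eq_one_of_fixes p σ hfix

/-- task S55/Z-cyclo : `ℚ(μ_p)` is unramified outside `S ∋ p` -/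
theorem exists_unramified_cyclo (p : ℕ) [Fact p.Prime] (S : Finset Nat.Primes)
    (hpS : pPrime p ∈ S) :
    ∃ F : NF, F.IsUnramifiedOutside S ∧ F.fixingSubgroup ≤ (cycloChar p).ker := by
  refine ⟨cycloNF p, isUnramifiedOutside_cycloNF p (Fact.out : p.Prime).ne_zero S ?_, ?_⟩
  · intro q hq
    have h1 : (q : ℕ) = p := (Nat.prime_dvd_prime_iff_eq q.2 Fact.out).1 hq
    have h2 : q = pPrime p := Subtype.ext h1
    rw [h2]
    exact hpS
  · intro σ hσ
    rw [MonoidHom.mem_ker]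
    exact cycloChar_eq_one_of_fixes p σ ((mem_fixingSubgroup_cycloNF_iff p σ).1 hσ)

end Fermat.Agent.S55

end
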