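/-
S55 / Z / ArithDatum : the arithmetic datum (levels `Lall`, `LS S` are in Arith/Defs).
-/
import Fermat.Agent.S55.D.Setup
import Fermat.Agent.S55.Z.Cyclo

set_option autoImplicit false

noncomputable section

namespace Fermat.Agent.S55

open Places ExtCitation

/-- decomposition group at a prime (as a `Nat.Primes`) -/
def DqP (q : Nat.Primes) : Subgroup GQ :=
  haveI : Fact (q : ℕ).Prime := ⟨q.2⟩
  Dq (q : ℕ)

theorem LS_isOpen_ker_cycloChar (p : ℕ) [Fact p.Prime] (S : Finset Nat.Primes)
    (hpS : pPrime p ∈ S) : (LS S).IsOpen (cycloChar p).ker :=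
  LS_isOpen_iff.2 (exists_unramified_cyclo p S hpS)

/-- **The arithmetic datum.** -/
abbrev arithDatum (p : ℕ) [Fact p.Prime] (S : Finset Nat.Primes) (hpS : pPrime p ∈ S) : Datum p where
  G := GQ
  L := LS S
  Lloc := Lall
  le := LS_le_Lall
  ι := ↥S
  ne := ⟨⟨pPrime p, hpS⟩⟩
  D := fun q => DqP q.1
  ω := cycloChar p
  ω_open := LS_isOpen_ker_cycloChar p S hpS

theorem trivial_twist_cycloChar (p : ℕ) [Fact p.Prime] :
    (Representation.trivial (ZMod p) GQ (ZMod p)).twist (cycloChar p) = mu p := by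
  ext g
  rw [Representation.twist_apply_apply, mu_apply]
  simp

theorem arithDatum_mu (p : ℕ) [Fact p.Prime] (S : Finset Nat.Primes) (hpS : pPrime p ∈ S) :
    (arithDatum p S hpS).mu = mu p := trivial_twist_cycloChar p

theorem arithDatum_dualT {p : ℕ} [Fact p.Prime] (S : Finset Nat.Primes) (hpS : pPrime p ∈ S)
    {X : Type} [AddCommGroup X] [Module (ZMod p) X] (ρ : Representation (ZMod p) GQ X) :
    (arithDatum p S hpS).dualT ρ = ρ.dual.twist (cycloChar p) := rfl

end Fermat.Agent.S55

end
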