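/-
S55 / Z / Dense : a level cocycle which becomes a (level) coboundary after pull back along a
homomorphism with dense image is a (level) coboundary.
-/
import Fermat.Agent.S55.Coh.Func

set_option autoImplicit false

namespace Fermat.Agent.S55

variable {k : Type} [CommRing k] {H H' : Type} [Group H] [Group H']
  {X : Type} [AddCommGroup X] [Module k X]

/-- degree 1 -/
theorem mem_B1_of_comp_dense (L : Levels H) (ρ : Representation k H X) [Smooth L ρ]
    (f : H' →* H) (hd : ∀ U : Subgroup H, L.IsOpen U → ∀ h : H, ∃ h' : H', h⁻¹ * f h' ∈ U)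
    {c : H → X} (hc : c ∈ Z1 L ρ) (m : X) (h : ∀ g : H', c (f g) = ρ (f g) m - m) :
    c ∈ B1 ρ := by
  rw [mem_B1]
  refine ⟨m, fun g => ?_⟩
  obtain ⟨-, U, hU, hcU⟩ := mem_Z1.1 hc
  obtain ⟨V, hV, hmV⟩ := Smooth.exists_isOpen (L := L) (ρ := ρ) m
  obtain ⟨g', hg'⟩ := hd (U ⊓ V) (L.isOpen_inf hU hV) g
  have e : f g' = g * (g⁻¹ * f g') := by group
  have h1 : c (f g') = c g := by rw [e]; exact hcU g _ hg'.1
  have h2 : ρ (f g') m = ρ g m := by
    rw [e, map_mul, Module.End.mul_apply, hmV _ hg'.2]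
  rw [← h1, h g', h2]

/-- degree 2 -/
theorem mem_B2_of_comp_dense (L : Levels H) (ρ : Representation k H X) [Smooth L ρ]
    (f : H' →* H) (hd : ∀ U : Subgroup H, L.IsOpen U → ∀ h : H, ∃ h' : H', h⁻¹ * f h' ∈ U)
    {z : H × H → X} (hz : z ∈ Z2 L ρ) (y' : H' → X)
    (hy' : ∃ U : Subgroup H, L.IsOpen U ∧ ∀ g s : H', f s ∈ U → y' (g * s) = y' g)
    (h : ∀ g g' : H', z (f g, f g') = ρ (f g) (y' g') - y' (g * g') + y' g) :
    z ∈ B2 L ρ := by
  classical
  obtain ⟨-, Uz, hUz, hzU⟩ := mem_Z2.1 hz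
  obtain ⟨U₁, hU₁, hyU⟩ := hy'
  obtain ⟨N, hN, hNle, hNn, hNf⟩ := L.exists_normal (L.isOpen_inf hUz hU₁)
  -- `y'` has finitely many values
  have hfin : (Set.range y').Finite := by
    haveI : Finite (H ⧸ N) := Subgroup.finite_quotient_of_finiteIndex
    let φ : H ⧸ N → X := fun w => if hw : ∃ g : H', (QuotientGroup.mk (f g) : H ⧸ N) = w
      then y' hw.choose else 0
    refine (Set.finite_range φ).subset ?_
    rintro _ ⟨g, rfl⟩
    refine ⟨QuotientGroup.mk (f g), ?_⟩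
    have hw : ∃ g₁ : H', (QuotientGroup.mk (f g₁) : H ⧸ N) = QuotientGroup.mk (f g) := ⟨g, rfl⟩
    simp only [φ, dif_pos hw]
    have := hw.choose_spec
    rw [QuotientGroup.eq] at this
    have e : g = hw.choose * (hw.choose⁻¹ * g) := by group
    conv_rhs => rw [e]
    refine (hyU _ _ ?_).symm
    rw [map_mul, map_inv]
    exact (hNle this).2
  -- an open subgroup fixing all the values
  have hfix : ∃ V : Subgroup H, L.IsOpen V ∧ ∀ x ∈ Set.range y', ∀ s ∈ V, ρ s x = x := by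
    refine Set.Finite.induction_on (motive := fun T _ => ∃ V : Subgroup H, L.IsOpen V ∧
      ∀ x ∈ T, ∀ s ∈ V, ρ s x = x) _ hfin ⟨⊤, L.isOpen_top, by simp⟩ ?_
    rintro a T - - ⟨V, hV, hVT⟩
    obtain ⟨W, hW, hWa⟩ := Smooth.exists_isOpen (L := L) (ρ := ρ) a
    refine ⟨V ⊓ W, L.isOpen_inf hV hW, ?_⟩
    rintro x (rfl | hx) s hs
    · exact hWa s hs.2
    · exact hVT x hx s hs.1
  obtain ⟨V, hV, hVfix⟩ := hfix
  obtain ⟨N', hN', hN'le, hN'n, -⟩ := L.exists_normal (L.isOpen_inf hN hV)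
  choose r hr using hd N' hN'
  -- key property of `y'`
  have key : ∀ (g : H) (g' : H'), g⁻¹ * f g' ∈ N' → y' g' = y' (r g) := by
    intro g g' hg'
    have e : g' = r g * ((r g)⁻¹ * g') := by group
    conv_lhs => rw [e]
    refine hyU _ _ ?_
    rw [map_mul, map_inv]
    have : (f (r g))⁻¹ * f g' = (g⁻¹ * f (r g))⁻¹ * (g⁻¹ * f g') := by group
    rw [this]
    exact (hNle (hN'le (N'.mul_mem (N'.inv_mem (hr g)) hg')).1).2
  rw [mem_B2]
  refine ⟨fun g => y' (r g), ⟨N', hN', fun g s hs => ?_⟩, fun g g' => ?_⟩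
  · refine (key g (r (g * s)) ?_)
    have : g⁻¹ * f (r (g * s)) = s * ((g * s)⁻¹ * f (r (g * s))) := by group
    rw [this]
    exact N'.mul_mem hs (hr _)
  · have e1 : f (r g) = g * (g⁻¹ * f (r g)) := by group
    have e2 : f (r g') = g' * (g'⁻¹ * f (r g')) := by group
    have hz1 : z (f (r g), f (r g')) = z (g, g') := by
      rw [e1, e2]
      exact hzU g g' _ (hNle (hN'le (hr g)).1).1 _ (hNle (hN'le (hr g')).1).1
    have h3 : y' (r g * r g') = y' (r (g * g')) := by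
      refine key (g * g') _ ?_
      rw [map_mul]
      have : (g * g')⁻¹ * (f (r g) * f (r g')) =
          (g'⁻¹ * (g⁻¹ * f (r g)) * g'⁻¹⁻¹) * (g'⁻¹ * f (r g')) := by group
      rw [this]
      exact N'.mul_mem (hN'n.conj_mem _ (hr g) _) (hr g')
    have h4 : ρ (f (r g)) (y' (r g')) = ρ g (y' (r g')) := by
      rw [e1, map_mul, Module.End.mul_apply, hVfix _ ⟨_, rfl⟩ _ (hN'le (hr g)).2]
    rw [← hz1, h (r g) (r g'), h3, h4]

end Fermat.Agent.S55
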