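/-
S55 / Z / FiniteGroup : cocycles of a finite group of invertible order are coboundaries
(explicit formulas, no level structure).
-/
import Fermat.Agent.S55.Coh.Func

set_option autoImplicit false

namespace Fermat.Agent.S55

variable {k : Type} [CommRing k] {H : Type} [Group H] {X : Type} [AddCommGroup X] [Module k X]

/-- degree 1: `c = d0 (-(1/n) Σ_h c h)` -/
theorem exists_eq_d0_of_fintype [Fintype H] (u : k) (hu : u * (Fintype.card H : k) = 1)
    (ρ : Representation k H X) (c : H → X) (hc : ∀ g h, c (g * h) = ρ g (c h) + c g) :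
    ∃ m : X, ∀ g, c g = ρ g m - m := by
  refine ⟨-(u • ∑ h, c h), fun g => ?_⟩
  have h1 : ∑ h, c (g * h) = ∑ h, c h :=
    Fintype.sum_equiv (Equiv.mulLeft g) _ _ (fun _ => rfl)
  have h2 : ∑ h, c (g * h) = ρ g (∑ h, c h) + (Fintype.card H : k) • c g := by
    simp only [hc, Finset.sum_add_distrib, map_sum, Finset.sum_const, Finset.card_univ,
      Nat.cast_smul_eq_nsmul]
  have h3 : ρ g (∑ h, c h) = ∑ h, c h - (Fintype.card H : k) • c g := by
    rw [h1] at h2
    exact eq_sub_of_add_eq h2.symm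
  rw [map_neg, map_smul, h3, smul_sub, smul_smul, hu, one_smul]
  abel

/-- degree 2: `z = d1 (g ↦ (1/n) Σ_j z (g, j))` -/
theorem eq_d1_of_fintype [Fintype H] (u : k) (hu : u * (Fintype.card H : k) = 1)
    (ρ : Representation k H X) (z : H × H → X)
    (hz : ∀ g h j, ρ g (z (h, j)) + z (g, h * j) = z (g * h, j) + z (g, h)) (g h : H) :
    z (g, h) = ρ g (u • ∑ j, z (h, j)) - u • ∑ j, z (g * h, j) + u • ∑ j, z (g, j) := by
  have h1 : ∑ j, z (g, h * j) = ∑ j, z (g, j) :=
    Fintype.sum_equiv (Equiv.mulLeft h) _ _ (fun _ => rfl)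
  have h2 : ρ g (∑ j, z (h, j)) + ∑ j, z (g, h * j) =
      ∑ j, z (g * h, j) + (Fintype.card H : k) • z (g, h) := by
    rw [map_sum, ← Finset.sum_add_distrib]
    simp only [hz, Finset.sum_add_distrib, Finset.sum_const, Finset.card_univ,
      Nat.cast_smul_eq_nsmul]
  rw [h1] at h2
  have h3 : (Fintype.card H : k) • z (g, h) =
      ρ g (∑ j, z (h, j)) - ∑ j, z (g * h, j) + ∑ j, z (g, j) := by
    have h5 : ρ g (∑ j, z (h, j)) - ∑ j, z (g * h, j) + ∑ j, z (g, j) =
        (ρ g (∑ j, z (h, j)) + ∑ j, z (g, j)) - ∑ j, z (g * h, j) := by abel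
    rw [h5, h2]; abel
  have h4 := congrArg (fun x => u • x) h3
  simp only [smul_smul, hu, one_smul, smul_add, smul_sub] at h4
  rw [map_smul]
  exact h4

end Fermat.Agent.S55
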