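/-
S55 / Z / Compare2 : comparison of Prelude's `sha₂` with `Datum.Sha2` of the arithmetic datum
(blueprint A9).
-/
import Fermat.Agent.S55.Z.ArithDatum
import Fermat.Agent.S55.Z.Dense
import Fermat.Agent.S55.Z.FiniteGroup
import Fermat.Agent.S55.Places.Dense

set_option autoImplicit false

noncomputable section

namespace Fermat.Agent.S55

open Places ExtCitation groupCohomology

/-! ### level functions -/

theorem isLevelConstantS₁_iff {S : Finset Nat.Primes} {Y : Type} (f : GQ → Y) :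
    IsLevelConstantS₁ S f ↔ (LS S).IsLevel₁ f := by
  constructor
  · rintro ⟨F, hF, h⟩
    exact ⟨F.fixingSubgroup, LS_isOpen_iff.2 ⟨F, hF, le_rfl⟩, fun g s hs => h g s hs⟩
  · rintro ⟨U, hU, h⟩
    obtain ⟨F, hF, hle⟩ := LS_isOpen_iff.1 hU
    exact ⟨F, hF, fun g s hs => h g s (hle hs)⟩

theorem isLevelConstantS₂_iff {S : Finset Nat.Primes} {Y : Type} (f : GQ × GQ → Y) :
    IsLevelConstantS₂ S f ↔ (LS S).IsLevel₂ f := by
  constructor
  · rintro ⟨F, hF, h⟩
    exact ⟨F.fixingSubgroup, LS_isOpen_iff.2 ⟨F, hF, le_rfl⟩,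
      fun g g' s hs s' hs' => h g g' s s' hs hs'⟩
  · rintro ⟨U, hU, h⟩
    obtain ⟨F, hF, hle⟩ := LS_isOpen_iff.1 hU
    exact ⟨F, hF, fun g g' s s' hs hs' => h g g' s (hle hs) s' (hle hs')⟩

variable {k : Type} [CommRing k]

theorem levelCocyclesS₂_eq (S : Finset Nat.Primes) (M : Rep k GQ) :
    levelCocyclesS₂ S M = Z2 (LS S) M.ρ := by
  ext f
  rw [mem_levelCocyclesS₂_iff, mem_Z2, mem_cocycles₂_iff, isLevelConstantS₂_iff]
  refine and_congr ?_ Iff.rfl
  exact ⟨fun h g g' g'' => (h g g' g'').symm, fun h g g' g'' => (h g g' g'').symm⟩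

theorem levelCoboundariesS₂_eq (S : Finset Nat.Primes) (M : Rep k GQ) :
    levelCoboundariesS₂ S M = B2 (LS S) M.ρ := by
  ext f
  rw [mem_levelCoboundariesS₂_iff, mem_B2]
  constructor
  · rintro ⟨x, hx, rfl⟩
    exact ⟨x, (isLevelConstantS₁_iff x).1 hx, fun g h => by rw [d₁₂_hom_apply]⟩
  · rintro ⟨x, hx, h⟩
    refine ⟨x, (isLevelConstantS₁_iff x).2 hx, ?_⟩
    ext ⟨g, g'⟩
    rw [d₁₂_hom_apply, h]

/-- the comparison isomorphism in degree 2 -/
def h2Equiv (S : Finset Nat.Primes) (M : Rep k GQ) : continuousH2S S M ≃ₗ[k] H2 (LS S) M.ρ :=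
  Submodule.Quotient.equiv _ _ (LinearEquiv.ofEq _ _ (levelCocyclesS₂_eq S M)) (by
    ext ⟨f, hf⟩
    simp only [Submodule.mem_map, Submodule.mem_comap, Submodule.subtype_apply]
    constructor
    · rintro ⟨⟨y, hy⟩, hy', h⟩
      have : y = f := congrArg Subtype.val h
      subst this
      rw [← levelCoboundariesS₂_eq]
      exact hy'
    · intro h
      refine ⟨⟨f, by rw [levelCocyclesS₂_eq]; exact hf⟩, ?_, rfl⟩
      rw [levelCoboundariesS₂_eq]
      exact h)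

theorem h2Equiv_mk (S : Finset Nat.Primes) (M : Rep k GQ) (z : ↥(levelCocyclesS₂ S M)) :
    h2Equiv S M (continuousH2Sπ S M z) =
      H2.mk (LS S) M.ρ ⟨z.1, by rw [← levelCocyclesS₂_eq]; exact z.2⟩ := rfl

/-- explicit form of the Prelude's local triviality condition -/
theorem locRes₂S_mk_eq_zero_iff (S : Finset Nat.Primes) (M : Rep k GQ) {H : Type} [Group H]
    (f : H →* GQ) (z : ↥(levelCocyclesS₂ S M)) :
    locRes₂S S M f (continuousH2Sπ S M z) = 0 ↔
      ∃ y : H → M, IsLevelConstant₁ f y ∧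
        ∀ g h, z.1 (f g, f h) = M.ρ (f g) (y h) - y (g * h) + y g := by
  have h1 : locRes₂S S M f (continuousH2Sπ S M z) =
      continuousH2π f (Rep.res f M)
        (levelCocycles₂Map (rH := MonoidHom.id _) (rG := f) f (fun _ => rfl)
          (LinearMap.id : M →ₗ[k] Rep.res f M) (fun _ _ => rfl)
          (levelCocyclesS₂ToLevelCocycles₂ S M z)) := rfl
  rw [h1, continuousH2π_eq_zero_iff, mem_levelCoboundaries₂_iff]
  constructor
  · rintro ⟨y, hy, h⟩
    refine ⟨y, hy, fun g g' => ?_⟩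
    have := congrFun h (g, g')
    rw [d₁₂_hom_apply] at this
    exact this.symm
  · rintro ⟨y, hy, h⟩
    refine ⟨y, hy, ?_⟩
    ext ⟨g, g'⟩
    rw [d₁₂_hom_apply]
    exact (h g g').symm

/-- finite groups of invertible order impose no condition -/
theorem locRes₂S_eq_zero_of_finite (S : Finset Nat.Primes) (M : Rep k GQ) {H : Type} [Group H]
    [Finite H] (u : k) (hu : u * (Nat.card H : k) = 1) (f : H →* GQ) (x : continuousH2S S M) :
    locRes₂S S M f x = 0 := by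
  classical
  obtain ⟨z, rfl⟩ := Submodule.mkQ_surjective _ x
  have := Fintype.ofFinite H
  rw [Nat.card_eq_fintype_card] at hu
  rw [locRes₂S_mk_eq_zero_iff]
  obtain ⟨hz1, F, hF, hz2⟩ := (mem_levelCocyclesS₂_iff S M z.1).1 z.2
  rw [mem_cocycles₂_iff] at hz1
  refine ⟨fun g => u • ∑ j, z.1 (f g, f j), ⟨F, hF.1, fun g s hs => ?_⟩, fun g h => ?_⟩
  · show u • ∑ j, z.1 (f (g * s), f j) = u • ∑ j, z.1 (f g, f j)
    congr 1
    refine Finset.sum_congr rfl fun j _ => ?_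
    have := hz2 (f g) (f j) (f s) 1 hs (one_mem _)
    rw [mul_one] at this
    rw [map_mul, this]
  · have := eq_d1_of_fintype u hu (MonoidHom.comp M.ρ f) (fun w => z.1 (f w.1, f w.2))
      (fun g h j => by
        simp only [MonoidHom.comp_apply, map_mul]
        exact (hz1 (f g) (f h) (f j)).symm) g h
    simpa only [MonoidHom.comp_apply, map_mul] using this

theorem card_archimedeanDecomposition_dvd : Nat.card ↥archimedeanDecomposition ∣ 2 := by
  rw [archimedeanDecomposition, Nat.card_zpowers]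
  exact orderOf_dvd_of_pow_eq_one complexConjugation_sq

instance finite_archimedeanDecomposition : Finite ↥archimedeanDecomposition :=
  Nat.finite_of_card_ne_zero (fun h => by
    have := card_archimedeanDecomposition_dvd
    rw [h] at this
    omega)

theorem exists_inv_card_archimedeanDecomposition {p : ℕ} [Fact p.Prime] (hp2 : p ≠ 2) :
    ∃ u : ZMod p, u * (Nat.card ↥archimedeanDecomposition : ZMod p) = 1 := by
  have h2 : (Nat.card ↥archimedeanDecomposition).Coprime p := by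
    refine Nat.Coprime.coprime_dvd_left card_archimedeanDecomposition_dvd ?_
    exact (Nat.coprime_primes Nat.prime_two Fact.out).2 (Ne.symm hp2)
  exact ⟨((ZMod.unitOfCoprime _ h2)⁻¹ : (ZMod p)ˣ), by
    rw [← ZMod.coe_unitOfCoprime _ h2, Units.inv_mul]⟩

theorem smooth_sub_of_LS (S : Finset Nat.Primes) {X : Type} [AddCommGroup X] [Module k X]
    (ρ : Representation k GQ X) [Smooth (LS S) ρ] (V : Subgroup GQ) :
    Smooth (Lall.sub V) (rsub ρ V) :=
  ⟨fun x => by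
    obtain ⟨U, hU, h⟩ := Smooth.exists_isOpen (L := LS S) (ρ := ρ) x
    exact ⟨U.subgroupOf V, ⟨U, LS_le_Lall U hU, le_rfl⟩, fun s hs => h s hs⟩⟩

/-- the Prelude local Galois group mapping to the decomposition group -/
def toDq (q : ℕ) [Fact q.Prime] : (PadicAlgCl q ≃ₐ[ℚ_[q]] PadicAlgCl q) →* ↥(Dq q) :=
  (localGaloisToGlobal q).codRestrict (Dq q) (localGaloisToGlobal_mem_decompositionSubgroup q)

theorem toDq_dense (q : ℕ) [Fact q.Prime] (U : Subgroup ↥(Dq q)) (hU : (Lall.sub (Dq q)).IsOpen U)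
    (h : ↥(Dq q)) : ∃ h' : PadicAlgCl q ≃ₐ[ℚ_[q]] PadicAlgCl q, h⁻¹ * toDq q h' ∈ U := by
  obtain ⟨U0, hU0, hle⟩ := hU
  obtain ⟨E, hE, hEU⟩ := Lall_isOpen_iff.1 hU0
  obtain ⟨τ, hτ⟩ := exists_local_lift q h.2 E
  refine ⟨τ, hle (hEU ?_)⟩
  have := inv_mem hτ
  rw [mul_inv_rev, inv_inv] at this
  exact this

/-- at a prime: the Prelude's condition is the vanishing of the restriction to `Dq` -/
theorem exists_levelConstant_iff_mem_B2 (q : ℕ) [Fact q.Prime] {X : Type} [AddCommGroup X]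
    [Module k X] (ρ : Representation k GQ X) [Smooth (Lall.sub (Dq q)) (rsub ρ (Dq q))]
    (z : ↥(Dq q) × ↥(Dq q) → X) (hz : z ∈ Z2 (Lall.sub (Dq q)) (rsub ρ (Dq q))) :
    (∃ y : (PadicAlgCl q ≃ₐ[ℚ_[q]] PadicAlgCl q) → X, IsLevelConstant₁ (localGaloisToGlobal q) y ∧
        ∀ g h, z (toDq q g, toDq q h) = ρ (localGaloisToGlobal q g) (y h) - y (g * h) + y g) ↔
      z ∈ B2 (Lall.sub (Dq q)) (rsub ρ (Dq q)) := by
  constructor
  · rintro ⟨y, ⟨F, hF, hy⟩, h⟩
    refine mem_B2_of_comp_dense (Lall.sub (Dq q)) (rsub ρ (Dq q)) (toDq q) (toDq_dense q) hz y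
      ⟨F.fixingSubgroup.subgroupOf (Dq q), ⟨F.fixingSubgroup, Lall_isOpen_iff.2 ⟨F, hF, le_rfl⟩,
        le_rfl⟩, fun g s hs => hy g s hs⟩ h
  · intro h
    obtain ⟨y, ⟨U, ⟨U0, hU0, hle⟩, hy⟩, h⟩ := mem_B2.1 h
    obtain ⟨E, hE, hEU⟩ := Lall_isOpen_iff.1 hU0
    refine ⟨fun g => y (toDq q g), ⟨E, hE, fun g s hs => ?_⟩, fun g g' => ?_⟩
    · show y (toDq q (g * s)) = y (toDq q g)
      rw [map_mul]
      exact hy _ _ (hle (hEU hs))
    · show _ = ρ (localGaloisToGlobal q g) (y (toDq q g')) - y (toDq q (g * g')) + y (toDq q g)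
      rw [h, map_mul]
      rfl

section final

variable {p : ℕ} [Fact p.Prime] (hp2 : p ≠ 2) (S : Finset Nat.Primes) (hpS : pPrime p ∈ S)

/-- the local condition of the datum, on cocycles -/
theorem loc_map2_mk_eq_zero_iff (M : Rep (ZMod p) GQ) (v : ↥S) (z : ↥(Z2 (LS S) M.ρ)) :
    ((arithDatum p S hpS).loc v M.ρ).map2 (H2.mk (LS S) M.ρ z) = 0 ↔
      (fun w : ↥(DqP v.1) × ↥(DqP v.1) => z.1 ((w.1 : GQ), (w.2 : GQ))) ∈
        B2 (Lall.sub (DqP v.1)) (rsub M.ρ (DqP v.1)) := by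
  rw [Pair.map2_mk, Submodule.mkQ_apply, Submodule.Quotient.mk_eq_zero, Submodule.mem_comap]
  rfl

include hpS in
theorem res_mem_Z2 (M : Rep (ZMod p) GQ) (v : ↥S) (z : ↥(Z2 (LS S) M.ρ)) :
    (fun w : ↥(DqP v.1) × ↥(DqP v.1) => z.1 ((w.1 : GQ), (w.2 : GQ))) ∈
        Z2 (Lall.sub (DqP v.1)) (rsub M.ρ (DqP v.1)) :=
  (((arithDatum p S hpS).loc v M.ρ).z2 z).2

include hp2 in
theorem mem_sha₂_iff (M : Rep (ZMod p) GQ) [Smooth (LS S) M.ρ] (x : continuousH2S S M) :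
    x ∈ sha₂ S M ↔ h2Equiv S M x ∈ (arithDatum p S hpS).Sha2 M.ρ := by
  obtain ⟨z, rfl⟩ := Submodule.mkQ_surjective _ x
  rw [h2Equiv_mk]
  unfold sha₂ Datum.Sha2 Datum.loc2
  rw [LinearMap.mem_ker, LinearMap.mem_ker, funext_iff, funext_iff]
  have key : ∀ v : ↥S, locRes₂S S M (extArithLoc S (Sum.inr v)) (continuousH2Sπ S M z) = 0 ↔
      ((arithDatum p S hpS).loc v M.ρ).map2
        (H2.mk (LS S) M.ρ ⟨z.1, by rw [← levelCocyclesS₂_eq]; exact z.2⟩) = 0 := by
    intro v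
    rw [loc_map2_mk_eq_zero_iff, locRes₂S_mk_eq_zero_iff]
    have : Fact (v.1 : ℕ).Prime := ⟨v.1.2⟩
    have := smooth_sub_of_LS S M.ρ (Dq (v.1 : ℕ))
    exact exists_levelConstant_iff_mem_B2 (v.1 : ℕ) M.ρ
      (fun w : ↥(Dq (v.1 : ℕ)) × ↥(Dq (v.1 : ℕ)) => z.1 ((w.1 : GQ), (w.2 : GQ)))
      (res_mem_Z2 S hpS M v ⟨z.1, by rw [← levelCocyclesS₂_eq]; exact z.2⟩)
  constructor
  · intro h v
    exact (key v).1 (h (Sum.inr v))
  · intro h v
    rcases v with v | v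
    · obtain ⟨u, hu⟩ := exists_inv_card_archimedeanDecomposition hp2
      exact locRes₂S_eq_zero_of_finite S M (H := ↥archimedeanDecomposition) u hu archimedeanLoc
        (continuousH2Sπ S M z)
    · exact (key v).2 (h v)

include hp2 in
theorem sha₂_equiv (M : Rep (ZMod p) GQ) [Smooth (LS S) M.ρ] :
    Nonempty (↥(sha₂ S M) ≃ₗ[ZMod p] ↥((arithDatum p S hpS).Sha2 M.ρ)) := by
  refine ⟨LinearEquiv.ofSubmodules (h2Equiv S M) _ _ ?_⟩
  ext y
  constructor
  · rintro ⟨x, hx, rfl⟩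
    exact (mem_sha₂_iff hp2 S hpS M x).1 hx
  · intro hy
    refine ⟨(h2Equiv S M).symm y, ?_, by simp⟩
    rw [SetLike.mem_coe, mem_sha₂_iff hp2 S hpS M, LinearEquiv.apply_symm_apply]
    exact hy

end final

end Fermat.Agent.S55

end
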