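/-
S55 / Z / TargetL : the EXACT statements which [L] (+ L-Bridge) has to deliver for the final assembly
(`Z/Axioms.lean`).  Proved from `L/Bridge.lean` (the local datum of `Dq q`) and `L/Duality.lean`.
-/
import Fermat.Agent.S55.Arith.Defs
import Fermat.Agent.S55.L.Bridge
import Fermat.Agent.S55.L.Duality

set_option autoImplicit false

noncomputable section

namespace Fermat.Agent.S55

open Places ExtCitation Module

variable (p : ℕ) [Fact p.Prime] (q : ℕ) [Fact q.Prime]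

/-- levels of the decomposition group `Dq q` -/
abbrev Lq : Levels ↥(Dq q) := Lall.sub (Dq q)

/-- `μ_p` restricted to `Dq q` -/
abbrev muq : Representation (ZMod p) ↥(Dq q) (ZMod p) := rsub (mu p) (Dq q)

variable {p q}
variable {X : Type} [AddCommGroup X] [Module (ZMod p) X] [FiniteDimensional (ZMod p) X]

/-- (L7) -/
theorem loc_fin1 (hp2 : p ≠ 2) (ρ : Representation (ZMod p) ↥(Dq q) X) [Smooth (Lq q) ρ] :
    FiniteDimensional (ZMod p) (H1 (Lq q) ρ) := (locDatum p q).finite_H1 hp2 ρ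

/-- (L7) -/
theorem loc_fin2 (hp2 : p ≠ 2) (ρ : Representation (ZMod p) ↥(Dq q) X) [Smooth (Lq q) ρ] :
    FiniteDimensional (ZMod p) (H2 (Lq q) ρ) := (locDatum p q).finite_H2 hp2 ρ

/-- (L4) -/
theorem loc_finrank_H2_mu (hp2 : p ≠ 2) : finrank (ZMod p) (H2 (Lq q) (muq p q)) = 1 :=
  (locDatum p q).finrank_H2_μ hp2 (hasChar_Dq p q)

/-- (L6) left nondegeneracy, for every isomorphism `lam` -/
theorem loc_left (hp2 : p ≠ 2) (lam : H2 (Lq q) (muq p q) ≃ₗ[ZMod p] ZMod p)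
    (ρ : Representation (ZMod p) ↥(Dq q) X) [Smooth (Lq q) ρ] (z : H2 (Lq q) ρ)
    (h : ∀ (φ : X →ₗ[ZMod p] ZMod p) (hφ : ∀ g x, φ (ρ g x) = muq p q g (φ x)),
      lam ((Pair.coeff (Lq q) φ hφ).map2 z) = 0) : z = 0 :=
  (locDatum p q).duality_left hp2 (hasChar_Dq p q) ρ z
    (fun φ hφ => lam.map_eq_zero_iff.1 (h φ hφ))

/-- (L6) right nondegeneracy, for every isomorphism `lam` -/
theorem loc_right (hp2 : p ≠ 2) (lam : H2 (Lq q) (muq p q) ≃ₗ[ZMod p] ZMod p)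
    (ρ : Representation (ZMod p) ↥(Dq q) X) [Smooth (Lq q) ρ]
    (φ : X →ₗ[ZMod p] ZMod p) (hφ : ∀ g x, φ (ρ g x) = muq p q g (φ x))
    (h : ∀ z : H2 (Lq q) ρ, lam ((Pair.coeff (Lq q) φ hφ).map2 z) = 0) : φ = 0 :=
  (locDatum p q).duality_right hp2 (hasChar_Dq p q) ρ φ hφ
    (fun z => lam.map_eq_zero_iff.1 (h z))

end Fermat.Agent.S55

end
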