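/-
S55 / Z / TargetB : the EXACT statements which [B] has to deliver for the final assembly
(`Z/Axioms.lean`).  Owner of the sorries: helper98 ([B]) / helper73 (reciprocity).
Add imports of `B/...` here when the proofs are available.
-/
import Fermat.Agent.S55.Z.ArithDatum
import Fermat.Agent.S55.B.BT.Main
import Fermat.Agent.S55.B.Recip.Final
import Fermat.Agent.S55.B.Trans.Glue

set_option autoImplicit false

noncomputable section

namespace Fermat.Agent.S55

open Places ExtCitation Module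

variable {p : ℕ} [Fact p.Prime] (hp2 : p ≠ 2) (S : Finset Nat.Primes) (hpS : pPrime p ∈ S)

section
variable {X : Type} [AddCommGroup X] [Module (ZMod p) X] [FiniteDimensional (ZMod p) X]

include hp2 hpS in
/-- (FIN) -/
theorem glob_fin1 (ρ : Representation (ZMod p) GQ X) [Smooth (LS S) ρ] :
    FiniteDimensional (ZMod p) (H1 (LS S) ρ) := trans_fin1 hp2 S hpS ρ

include hp2 hpS in
/-- (FIN) -/
theorem glob_fin2 (ρ : Representation (ZMod p) GQ X) [Smooth (LS S) ρ] :
    FiniteDimensional (ZMod p) (H2 (LS S) ρ) := trans_fin2 hp2 S hpS ρ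

end

include hp2 in
/-- (G1) reciprocity -/
theorem glob_recip :
    ∃ lam : ∀ v : ↥S, H2 (Lall.sub (DqP v.1)) (rsub (mu p) (DqP v.1)) ≃ₗ[ZMod p] ZMod p,
      ∀ z : H2 (LS S) (mu p), ∑ v, lam v (((arithDatum p S hpS).loc v (mu p)).map2 z) = 0 :=
  Recip.glob_recip hp2 S hpS

include hp2 in
/-- (bt) -/
theorem glob_bt (U : Subgroup GQ) (hU : (LS S).IsOpen U) :
    ∃ N : Subgroup GQ, (LS S).IsOpen N ∧ N ≤ U ∧ N.Normal ∧ N ≤ (cycloChar p).ker ∧
      (arithDatum p S hpS).c (Fun (Representation.trivial (ZMod p) GQ (ZMod p)) (GQ ⧸ N)) ≤ 1 :=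
  bt_main hp2 S hpS U hU

include hp2 in
/-- (bE) -/
theorem glob_bE (U : Subgroup GQ) (hU : (LS S).IsOpen U) (hω : U ≤ (cycloChar p).ker) :
    (arithDatum p S hpS).E (Fun (Representation.trivial (ZMod p) GQ (ZMod p)) (GQ ⧸ U)) ≤ 0 :=
  trans_bE hp2 S hpS (glob_recip hp2 S hpS) U hU hω

end Fermat.Agent.S55

end
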