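/-
S55 / Z / Axioms : the arithmetic datum satisfies the axioms (assembled from `Z/TargetL`, `Z/TargetB`).
-/
import Fermat.Agent.S55.Z.TargetL
import Fermat.Agent.S55.Z.TargetB
import Fermat.Agent.S55.Z.Compare2

set_option autoImplicit false

noncomputable section

namespace Fermat.Agent.S55

open Places ExtCitation Module

variable {p : ℕ} [Fact p.Prime]

/-- converse of `Datum.dualT_invariant_apply` -/
theorem Datum.mem_H0_dualT (𝒜 : Datum p) {X : Type} [AddCommGroup X] [Module (ZMod p) X]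
    (ρ : Representation (ZMod p) 𝒜.G X) (V : Subgroup 𝒜.G) (φ : Module.Dual (ZMod p) X)
    (hφ : ∀ (g : V) (x : X), φ (rsub ρ V g x) = rsub 𝒜.mu V g (φ x)) :
    φ ∈ H0 (rsub (𝒜.dualT ρ) V) := by
  intro g
  ext x
  have h := hφ g⁻¹ x
  simp only [Datum.mu, MonoidHom.comp_apply, Subgroup.coe_subtype, InvMemClass.coe_inv,
    Representation.twist_apply_apply, Representation.trivial_apply] at h
  simp only [MonoidHom.comp_apply, Subgroup.coe_subtype, Representation.twist_apply_apply,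
    LinearMap.smul_apply, Representation.dual_apply, Module.Dual.transpose_apply,
    LinearMap.comp_apply]
  rw [h, smul_smul, map_inv, Units.mul_inv, one_smul]

/-- the package of statements involving `μ`, for a representation `μ'` equal to `mu p` -/
theorem exists_lam_package (hp2 : p ≠ 2) (S : Finset Nat.Primes) (hpS : pPrime p ∈ S)
    (μ' : Representation (ZMod p) GQ (ZMod p)) (hμ : μ' = mu p) :
    ∃ lam : ∀ v : ↥S, H2 (Lall.sub (DqP v.1)) (rsub μ' (DqP v.1)) ≃ₗ[ZMod p] ZMod p,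
      (∀ {X : Type} [AddCommGroup X] [Module (ZMod p) X] [FiniteDimensional (ZMod p) X]
        (ρ : Representation (ZMod p) GQ X) [Smooth (LS S) ρ] (v : ↥S)
        (z : H2 (Lall.sub (DqP v.1)) (rsub ρ (DqP v.1))),
        (∀ (φ : X →ₗ[ZMod p] ZMod p)
          (hφ : ∀ g x, φ (rsub ρ (DqP v.1) g x) = rsub μ' (DqP v.1) g (φ x)),
          lam v ((Pair.coeff (Lall.sub (DqP v.1)) φ hφ).map2 z) = 0) → z = 0) ∧
      (∀ {X : Type} [AddCommGroup X] [Module (ZMod p) X] [FiniteDimensional (ZMod p) X]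
        (ρ : Representation (ZMod p) GQ X) [Smooth (LS S) ρ] (v : ↥S)
        (φ : X →ₗ[ZMod p] ZMod p)
        (hφ : ∀ g x, φ (rsub ρ (DqP v.1) g x) = rsub μ' (DqP v.1) g (φ x)),
        (∀ z : H2 (Lall.sub (DqP v.1)) (rsub ρ (DqP v.1)),
          lam v ((Pair.coeff (Lall.sub (DqP v.1)) φ hφ).map2 z) = 0) → φ = 0) ∧
      (∀ z : H2 (LS S) μ', ∑ v, lam v (((arithDatum p S hpS).loc v μ').map2 z) = 0) := by
  subst hμ
  obtain ⟨lam, hlam⟩ := glob_recip hp2 S hpS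
  refine ⟨lam, ?_, ?_, hlam⟩
  · intro X _ _ _ ρ _ v z h
    have : Fact (v.1 : ℕ).Prime := ⟨v.1.2⟩
    have := smooth_sub_of_LS S ρ (Dq (v.1 : ℕ))
    exact loc_left (q := (v.1 : ℕ)) hp2 (lam v) (rsub ρ (Dq (v.1 : ℕ))) z h
  · intro X _ _ _ ρ _ v φ hφ h
    have : Fact (v.1 : ℕ).Prime := ⟨v.1.2⟩
    have := smooth_sub_of_LS S ρ (Dq (v.1 : ℕ))
    exact loc_right (q := (v.1 : ℕ)) hp2 (lam v) (rsub ρ (Dq (v.1 : ℕ))) φ hφ h

/-- assembled from [L] (finLoc1, finLoc2, L1_left, L1_right) and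
[B] (fin1, fin2, choice of `lam`, G1, bt, bE). -/
theorem arithAxioms (hp2 : p ≠ 2) (S : Finset Nat.Primes)
    (hpS : pPrime p ∈ S) : Nonempty (arithDatum p S hpS).Axioms := by
  obtain ⟨lam, hl, hr, hG⟩ := exists_lam_package hp2 S hpS (arithDatum p S hpS).mu
    (arithDatum_mu p S hpS)
  exact ⟨{
    fin1 := fun ρ _ => glob_fin1 hp2 S hpS ρ
    fin2 := fun ρ _ => glob_fin2 hp2 S hpS ρ
    finLoc1 := fun ρ _ v => by
      have : Fact (v.1 : ℕ).Prime := ⟨v.1.2⟩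
      have := smooth_sub_of_LS S ρ (Dq (v.1 : ℕ))
      exact loc_fin1 (q := (v.1 : ℕ)) hp2 (rsub ρ (Dq (v.1 : ℕ)))
    finLoc2 := fun ρ _ v => by
      have : Fact (v.1 : ℕ).Prime := ⟨v.1.2⟩
      have := smooth_sub_of_LS S ρ (Dq (v.1 : ℕ))
      exact loc_fin2 (q := (v.1 : ℕ)) hp2 (rsub ρ (Dq (v.1 : ℕ)))
    lam := lam
    L1_left := fun ρ _ v z h => hl ρ v z (fun φ hφ =>
      h ⟨φ, (arithDatum p S hpS).mem_H0_dualT ρ _ φ hφ⟩)
    L1_right := fun ρ _ v φ h => Subtype.ext (hr ρ v φ.1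
      ((arithDatum p S hpS).dualT_invariant_apply ρ _ φ) h)
    G1 := hG
    bt := fun U hU => glob_bt hp2 S hpS U hU
    bE := fun U hU hω => glob_bE hp2 S hpS U hU hω }⟩

end Fermat.Agent.S55

end
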