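/-
S55 / Z / Compare1 : comparison of Prelude's `sha₁` with `Datum.Sha1` of the arithmetic datum
(blueprint A9).
-/
import Fermat.Agent.S55.Z.Compare2

set_option autoImplicit false

noncomputable section

namespace Fermat.Agent.S55

open Places ExtCitation groupCohomology CategoryTheory

variable {k : Type} [CommRing k]

theorem Z1_le_cocycles₁ (S : Finset Nat.Primes) (M : Rep k GQ) :
    Z1 (LS S) M.ρ ≤ cocycles₁ M := by
  intro f hf
  rw [mem_cocycles₁_iff]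
  exact (mem_Z1.1 hf).1

theorem mem_coboundaries₁_iff {G : Type} [Group G] (M : Rep.{0} k G) (f : G → M) :
    f ∈ coboundaries₁ M ↔ ∃ m : M, ∀ g, f g = M.ρ g m - m := by
  constructor
  · rintro ⟨m, rfl⟩
    exact ⟨m, fun g => rfl⟩
  · rintro ⟨m, hm⟩
    exact ⟨m, by ext g; rw [hm g]; rfl⟩

/-- the comparison map in degree 1 -/
def h1Map (S : Finset Nat.Primes) (M : Rep k GQ) : H1 (LS S) M.ρ →ₗ[k] groupCohomology.H1 M :=
  Submodule.liftQ _ ((H1π M).hom ∘ₗ Submodule.inclusion (Z1_le_cocycles₁ S M)) (by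
    intro c hc
    rw [LinearMap.mem_ker, LinearMap.comp_apply]
    refine (H1π_eq_zero_iff _).2 ?_
    rw [mem_coboundaries₁_iff]
    exact mem_B1.1 hc)

theorem h1Map_mk (S : Finset Nat.Primes) (M : Rep k GQ) (c : ↥(Z1 (LS S) M.ρ)) :
    h1Map S M (H1.mk (LS S) M.ρ c) = (H1π M).hom ⟨c.1, Z1_le_cocycles₁ S M c.2⟩ := rfl

theorem h1Map_injective (S : Finset Nat.Primes) (M : Rep k GQ) :
    Function.Injective (h1Map S M) := by
  rw [← LinearMap.ker_eq_bot, LinearMap.ker_eq_bot']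
  intro x hx
  obtain ⟨c, rfl⟩ := H1.mk_surjective _ _ x
  rw [h1Map_mk] at hx
  have := (H1π_eq_zero_iff _).1 hx
  rw [mem_coboundaries₁_iff] at this
  exact (H1.mk_eq_zero_iff c).2 this

theorem range_h1Map (S : Finset Nat.Primes) (M : Rep k GQ) :
    LinearMap.range (h1Map S M) = continuousH1S S M := by
  ext x
  rw [mem_continuousH1S_iff]
  constructor
  · rintro ⟨y, rfl⟩
    obtain ⟨c, rfl⟩ := H1.mk_surjective _ _ y
    exact ⟨⟨c.1, Z1_le_cocycles₁ S M c.2⟩, (isLevelConstantS₁_iff _).2 (mem_Z1.1 c.2).2, rfl⟩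
  · rintro ⟨c, hc, rfl⟩
    exact ⟨H1.mk (LS S) M.ρ
      ⟨c.1, mem_Z1.2 ⟨(mem_cocycles₁_iff _).1 c.2, (isLevelConstantS₁_iff _).1 hc⟩⟩, rfl⟩

/-- explicit form of the Prelude's local triviality condition -/
theorem map_H1π_eq_zero_iff (M : Rep.{0} k GQ) {H : Type} [Group H] (f : H →* GQ) (c : cocycles₁ M) :
    (groupCohomology.map f (𝟙 (Rep.res f M)) 1).hom ((H1π M).hom c) = 0 ↔
      ∃ m : M, ∀ g, c (f g) = M.ρ (f g) m - m := by
  have h1 : (groupCohomology.map f (𝟙 (Rep.res f M)) 1).hom ((H1π M).hom c) =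
      (H1π (Rep.res f M)).hom ((mapCocycles₁ f (𝟙 (Rep.res f M))).hom c) :=
    H1π_comp_map_apply f (𝟙 (Rep.res f M)) c
  rw [h1]
  erw [H1π_eq_zero_iff]
  rw [mem_coboundaries₁_iff]
  rfl

/-- finite groups of invertible order impose no condition -/
theorem exists_eq_d0_comp_of_finite (M : Rep.{0} k GQ) {H : Type} [Group H] [Finite H] (u : k)
    (hu : u * (Nat.card H : k) = 1) (f : H →* GQ) (c : cocycles₁ M) :
    ∃ m : M, ∀ g, c (f g) = M.ρ (f g) m - m := by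
  have := Fintype.ofFinite H
  rw [Nat.card_eq_fintype_card] at hu
  exact exists_eq_d0_of_fintype u hu (MonoidHom.comp M.ρ f) (fun g => c (f g)) (fun g h => by
    show c (f (g * h)) = _
    rw [map_mul, (mem_cocycles₁_iff c).1 c.2]
    rfl)

/-- at a prime: the Prelude's condition is the vanishing of the restriction to `Dq` -/
theorem exists_eq_d0_comp_iff_mem_B1 (q : ℕ) [Fact q.Prime] {X : Type} [AddCommGroup X]
    [Module k X] (ρ : Representation k GQ X) [Smooth (Lall.sub (Dq q)) (rsub ρ (Dq q))]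
    (c : ↥(Dq q) → X) (hc : c ∈ Z1 (Lall.sub (Dq q)) (rsub ρ (Dq q))) :
    (∃ m : X, ∀ g, c (toDq q g) = ρ (localGaloisToGlobal q g) m - m) ↔
      c ∈ B1 (rsub ρ (Dq q)) := by
  constructor
  · rintro ⟨m, h⟩
    exact mem_B1_of_comp_dense (Lall.sub (Dq q)) (rsub ρ (Dq q)) (toDq q) (toDq_dense q) hc m h
  · intro h
    obtain ⟨m, hm⟩ := mem_B1.1 h
    exact ⟨m, fun g => hm _⟩

section final

variable {p : ℕ} [Fact p.Prime] (hp2 : p ≠ 2) (S : Finset Nat.Primes) (hpS : pPrime p ∈ S)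

/-- the local condition of the datum, on cocycles -/
theorem loc_map1_mk_eq_zero_iff (M : Rep (ZMod p) GQ) (v : ↥S) (c : ↥(Z1 (LS S) M.ρ)) :
    ((arithDatum p S hpS).loc v M.ρ).map1 (H1.mk (LS S) M.ρ c) = 0 ↔
      (fun w : ↥(DqP v.1) => c.1 (w : GQ)) ∈ B1 (rsub M.ρ (DqP v.1)) := by
  rw [Pair.map1_mk, Submodule.mkQ_apply, Submodule.Quotient.mk_eq_zero, Submodule.mem_comap]
  rfl

include hpS in
theorem res_mem_Z1 (M : Rep (ZMod p) GQ) (v : ↥S) (c : ↥(Z1 (LS S) M.ρ)) :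
    (fun w : ↥(DqP v.1) => c.1 (w : GQ)) ∈ Z1 (Lall.sub (DqP v.1)) (rsub M.ρ (DqP v.1)) :=
  (((arithDatum p S hpS).loc v M.ρ).z1 c).2

include hp2 in
theorem mem_Sha1_iff (M : Rep (ZMod p) GQ) [Smooth (LS S) M.ρ] (x : H1 (LS S) M.ρ) :
    x ∈ (arithDatum p S hpS).Sha1 M.ρ ↔
      h1Map S M x ∈ LinearMap.ker (locTotal (extArithLoc S) M) := by
  obtain ⟨c, rfl⟩ := H1.mk_surjective _ _ x
  rw [h1Map_mk]
  unfold Datum.Sha1 Datum.loc1 locTotal
  rw [LinearMap.mem_ker, LinearMap.mem_ker, funext_iff, funext_iff]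
  have key : ∀ v : ↥S, (locRes (extArithLoc S) M (Sum.inr v)).hom
        ((H1π M).hom ⟨c.1, Z1_le_cocycles₁ S M c.2⟩) = 0 ↔
      ((arithDatum p S hpS).loc v M.ρ).map1 (H1.mk (LS S) M.ρ c) = 0 := by
    intro v
    rw [loc_map1_mk_eq_zero_iff, map_H1π_eq_zero_iff]
    have : Fact (v.1 : ℕ).Prime := ⟨v.1.2⟩
    have := smooth_sub_of_LS S M.ρ (Dq (v.1 : ℕ))
    exact exists_eq_d0_comp_iff_mem_B1 (v.1 : ℕ) M.ρ
      (fun w : ↥(Dq (v.1 : ℕ)) => c.1 (w : GQ)) (res_mem_Z1 S hpS M v c)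
  constructor
  · intro h v
    rcases v with v | v
    · obtain ⟨u, hu⟩ := exists_inv_card_archimedeanDecomposition hp2
      exact (map_H1π_eq_zero_iff M (H := ↥archimedeanDecomposition) archimedeanLoc _).2
        (exists_eq_d0_comp_of_finite M u hu archimedeanLoc _)
    · exact (key v).2 (h v)
  · intro h v
    exact (key v).1 (h (Sum.inr v))

include hp2 in
theorem sha₁_equiv (M : Rep (ZMod p) GQ) [Smooth (LS S) M.ρ] :
    Nonempty (↥(sha₁ S M) ≃ₗ[ZMod p] ↥((arithDatum p S hpS).Sha1 M.ρ)) := by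
  have h : ((arithDatum p S hpS).Sha1 M.ρ).map (h1Map S M) = sha₁ S M := by
    ext y
    unfold sha₁
    rw [Submodule.mem_inf, ← range_h1Map]
    constructor
    · rintro ⟨x, hx, rfl⟩
      exact ⟨⟨x, rfl⟩, (mem_Sha1_iff hp2 S hpS M x).1 hx⟩
    · rintro ⟨⟨x, rfl⟩, hx⟩
      exact ⟨x, (mem_Sha1_iff hp2 S hpS M x).2 hx, rfl⟩
  exact ⟨((Submodule.equivMapOfInjective (h1Map S M) (h1Map_injective S M) _).trans
    (LinearEquiv.ofEq _ _ h)).symm⟩

end final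

end Fermat.Agent.S55

end
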