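/-
S55 / Z / Compare : comparison of Prelude's sha₁, sha₂ with `Datum.Sha1`, `Datum.Sha2`
of the arithmetic datum (blueprint A9): `sha₂_equiv` (Compare2), `sha₁_equiv` (Compare1).
-/
import Fermat.Agent.S55.Z.Compare1
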