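/-
S55 / Z / Pairing : two finite-dimensional spaces of the same dimension admit a perfect pairing.
-/
import Mathlib

set_option autoImplicit false

namespace Fermat.Agent.S55

open Module

theorem exists_perfect_pairing {k V W : Type*} [Field k] [AddCommGroup V] [Module k V]
    [AddCommGroup W] [Module k W] [FiniteDimensional k V] [FiniteDimensional k W]
    (h : finrank k V = finrank k W) :
    ∃ B : V →ₗ[k] W →ₗ[k] k,
      (∀ y, (∀ x, B y x = 0) → y = 0) ∧ (∀ x, (∀ y, B y x = 0) → x = 0) := by
  have h' : finrank k V = finrank k (Module.Dual k W) := by rw [h, Subspace.dual_finrank_eq]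
  let e : V ≃ₗ[k] Module.Dual k W := LinearEquiv.ofFinrankEq V (Module.Dual k W) h'
  refine ⟨e.toLinearMap, fun y hy => ?_, fun x hx => ?_⟩
  · apply e.injective
    rw [map_zero]
    ext x
    exact hy x
  · rw [← Module.forall_dual_apply_eq_zero_iff k x]
    intro φ
    have := hx (e.symm φ)
    simpa using this

end Fermat.Agent.S55
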