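/-
S55 / Z / SmoothLS : TASK S55/Z-smoothLS.
-/
import Fermat.Agent.S55.Arith.Defs
import Fermat.Agent.S55.Places.Galois

set_option autoImplicit false

noncomputable section

namespace Fermat.Agent.S55

open Places ExtCitation

variable {p : ℕ} [Fact p.Prime] (S : Finset Nat.Primes)

/-- a finite-dimensional representation with open stabilisers which is unramified outside `S`
is smooth for `LS S`. -/
theorem smooth_LS_of_unramified (M : Rep (ZMod p) GQ) [FiniteDimensional (ZMod p) M]
    (hsm : ∀ m : M, ∃ F : IntermediateField ℚ (AlgebraicClosure ℚ), FiniteDimensional ℚ F ∧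
      ∀ s ∈ F.fixingSubgroup, M.ρ s m = m)
    (hMur : ∀ q : Nat.Primes, q ∉ S → ∀ A : ValuationSubring (AlgebraicClosure ℚ),
      A.LiesOverPrime (q : ℕ) → ∀ g ∈ A.inertiaSubgroupIn ℚ, M.ρ g = 1) :
    Smooth (LS S) M.ρ := by
  have hfin : Finite M := Module.finite_of_finite (ZMod p)
  choose F hF hFfix using hsm
  have hFd : FiniteDimensional ℚ ↥(⨆ m : M, F m) :=
    IntermediateField.finiteDimensional_iSup_of_finite
  have hker : (⨆ m : M, F m).fixingSubgroup ≤ M.ρ.ker := by
    intro s hs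
    rw [MonoidHom.mem_ker]
    ext m
    exact hFfix m s (IntermediateField.fixingSubgroup_antitone (le_iSup F m) hs)
  have hopen : IsOpenIn ⊤ M.ρ.ker := ⟨le_top, _, hFd, inf_le_right.trans hker⟩
  obtain ⟨K, hK, hN, -⟩ := hopen.exists_numberField
  rw [top_inf_eq] at hN
  have hKur : K.IsUnramifiedOutside S := by
    refine ⟨hK, fun q hq A hA g hg => ?_⟩
    rw [← hN, MonoidHom.mem_ker]
    exact hMur q hq A hA g hg
  refine ⟨fun x => ⟨K.fixingSubgroup, LS_isOpen_iff.2 ⟨K, hKur, le_rfl⟩, fun s hs => ?_⟩⟩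
  rw [← hN, MonoidHom.mem_ker] at hs
  rw [hs]
  rfl

end Fermat.Agent.S55

end
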